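/-
DS-L (helper8): `ℤ_[ℓ]` is the inverse limit of the rings `ZMod (ℓ ^ n)`: every compatible sequence
of elements comes from a unique `ℓ`-adic integer.
-/
import Mathlib

set_option autoImplicit false
set_option linter.style.haveILetI false
set_option linter.unusedSectionVars false

namespace Fermat.Agent.DS

variable (ℓ : ℕ) [Fact ℓ.Prime]

/-- the transition map `ZMod (ℓ ^ n) → ZMod (ℓ ^ m)`, `m ≤ n` -/
noncomputable abbrev dslCast {m n : ℕ} (h : m ≤ n) : ZMod (ℓ ^ n) →+* ZMod (ℓ ^ m) :=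
  ZMod.castHom (pow_dvd_pow ℓ h) (ZMod (ℓ ^ m))

theorem dslCast_comp {k m n : ℕ} (h₁ : k ≤ m) (h₂ : m ≤ n) :
    (dslCast ℓ h₁).comp (dslCast ℓ h₂) = dslCast ℓ (h₁.trans h₂) :=
  RingHom.ext_zmod _ _

theorem dslCast_dslCast {k m n : ℕ} (h₁ : k ≤ m) (h₂ : m ≤ n) (x : ZMod (ℓ ^ n)) :
    dslCast ℓ h₁ (dslCast ℓ h₂ x) = dslCast ℓ (h₁.trans h₂) x :=
  RingHom.congr_fun (dslCast_comp ℓ h₁ h₂) x

theorem dslCast_toZModPow {m n : ℕ} (h : m ≤ n) (y : ℤ_[ℓ]) :
    dslCast ℓ h (PadicInt.toZModPow n y) = PadicInt.toZModPow m y :=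
  RingHom.congr_fun (PadicInt.zmod_cast_comp_toZModPow m n h) y

/-- the ring of compatible sequences -/
def dslCompat : Subring (∀ n : ℕ, ZMod (ℓ ^ n)) where
  carrier := {x | ∀ (m n : ℕ) (h : m ≤ n), dslCast ℓ h (x n) = x m}
  mul_mem' := fun {x y} hx hy m n h => by
    show dslCast ℓ h (x n * y n) = x m * y m
    rw [map_mul, hx m n h, hy m n h]
  one_mem' := fun m n h => by
    show dslCast ℓ h 1 = 1
    rw [map_one]
  add_mem' := fun {x y} hx hy m n h => by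
    show dslCast ℓ h (x n + y n) = x m + y m
    rw [map_add, hx m n h, hy m n h]
  zero_mem' := fun m n h => by
    show dslCast ℓ h 0 = 0
    rw [map_zero]
  neg_mem' := fun {x} hx m n h => by
    show dslCast ℓ h (-x n) = -x m
    rw [map_neg, hx m n h]

/-- **every compatible sequence is the sequence of reductions of an `ℓ`-adic integer** -/
theorem dsl_exists_padicInt (x : ∀ n : ℕ, ZMod (ℓ ^ n))
    (hx : ∀ (m n : ℕ) (h : m ≤ n), dslCast ℓ h (x n) = x m) :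
    ∃ y : ℤ_[ℓ], ∀ n, PadicInt.toZModPow n y = x n := by
  let f : ∀ k : ℕ, ↥(dslCompat ℓ) →+* ZMod (ℓ ^ k) := fun k =>
    (Pi.evalRingHom (fun n : ℕ => ZMod (ℓ ^ n)) k).comp (dslCompat ℓ).subtype
  have f_compat : ∀ (k1 k2 : ℕ) (hk : k1 ≤ k2),
      (ZMod.castHom (pow_dvd_pow ℓ hk) (ZMod (ℓ ^ k1))).comp (f k2) = f k1 := by
    intro k1 k2 hk
    ext z
    exact z.2 k1 k2 hk
  refine ⟨PadicInt.lift f_compat ⟨x, hx⟩, fun n => ?_⟩
  have := RingHom.congr_fun (PadicInt.lift_spec f_compat n) ⟨x, hx⟩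
  exact this

/-- compatibility of consecutive terms suffices -/
theorem dsl_compat_of_succ (x : ∀ n : ℕ, ZMod (ℓ ^ n))
    (hx : ∀ n : ℕ, dslCast ℓ (Nat.le_succ n) (x (n + 1)) = x n) :
    ∀ (m n : ℕ) (h : m ≤ n), dslCast ℓ h (x n) = x m := by
  intro m n h
  induction n, h using Nat.le_induction with
  | base =>
    have : dslCast ℓ (le_refl m) = RingHom.id _ := RingHom.ext_zmod _ _
    rw [this]
    rfl
  | succ n hmn ih =>
    rw [← dslCast_dslCast ℓ hmn (Nat.le_succ n), hx n, ih]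

end Fermat.Agent.DS
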