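/-
DS-L (helper8): the reduction map `GL₂(ℤ/ℓ^(m+1)) → GL₂(ℤ/ℓ^m)`, `m ≥ 1`, is surjective and its kernel
is an `ℓ`-group.
-/
import Mathlib
import Fermat.Agent.Lib.DS.Lift.PadicLim

set_option autoImplicit false
set_option linter.style.haveILetI false
set_option linter.unusedSectionVars false

open Matrix

namespace Fermat.Agent.DS

variable (ℓ : ℕ) [Fact ℓ.Prime]

/-- an element of `ℤ/ℓ^(m+1)` whose reduction modulo `ℓ^m` (`m ≥ 1`) is a unit is a unit -/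
theorem dsl_isUnit_of_cast (m : ℕ) (hm : 1 ≤ m) (x : ZMod (ℓ ^ (m + 1)))
    (h : IsUnit (dslCast ℓ (Nat.le_succ m) x)) : IsUnit x := by
  have hℓ : ℓ.Prime := Fact.out
  rw [← ZMod.natCast_zmod_val x] at h ⊢
  rw [map_natCast, ZMod.isUnit_iff_coprime, Nat.coprime_pow_right_iff (by omega)] at h
  rw [ZMod.isUnit_iff_coprime, Nat.coprime_pow_right_iff (by omega)]
  exact h

/-- the kernel of `ℤ/ℓ^(m+1) → ℤ/ℓ^m` is generated by `ℓ^m` -/
theorem dsl_exists_mul_of_cast_eq_zero (m : ℕ) (x : ZMod (ℓ ^ (m + 1)))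
    (h : dslCast ℓ (Nat.le_succ m) x = 0) : ∃ y : ZMod (ℓ ^ (m + 1)), x = (ℓ : ZMod (ℓ ^ (m + 1))) ^ m * y := by
  rw [← ZMod.natCast_zmod_val x, map_natCast, ZMod.natCast_eq_zero_iff] at h
  obtain ⟨y, hy⟩ := h
  refine ⟨(y : ZMod (ℓ ^ (m + 1))), ?_⟩
  rw [← ZMod.natCast_zmod_val x, hy]
  push_cast
  rfl

/-- the reduction map on `GL₂` -/
noncomputable abbrev dslGLCast (m : ℕ) :
    GL (Fin 2) (ZMod (ℓ ^ (m + 1))) →* GL (Fin 2) (ZMod (ℓ ^ m)) :=
  Matrix.GeneralLinearGroup.map (dslCast ℓ (Nat.le_succ m))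

theorem dslGLCast_surjective (m : ℕ) (hm : 1 ≤ m) : Function.Surjective (dslGLCast ℓ m) := by
  intro A
  have hsurj : Function.Surjective (dslCast ℓ (Nat.le_succ m)) := ZMod.ringHom_surjective _
  choose lift hlift using hsurj
  let B : Matrix (Fin 2) (Fin 2) (ZMod (ℓ ^ (m + 1))) := fun i j => lift ((A : Matrix _ _ _) i j)
  have hB : B.map (dslCast ℓ (Nat.le_succ m)) = (A : Matrix (Fin 2) (Fin 2) (ZMod (ℓ ^ m))) := by
    ext i j
    exact hlift _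
  have hdet : IsUnit B.det := by
    apply dsl_isUnit_of_cast ℓ m hm
    have h1 : dslCast ℓ (Nat.le_succ m) B.det = (B.map (dslCast ℓ (Nat.le_succ m))).det :=
      RingHom.map_det _ _
    rw [h1, hB]
    exact (Matrix.isUnit_iff_isUnit_det _).mp A.isUnit
  obtain ⟨u, hu⟩ := (Matrix.isUnit_iff_isUnit_det B).mpr hdet
  refine ⟨u, ?_⟩
  apply Units.ext
  show ((u : Matrix (Fin 2) (Fin 2) (ZMod (ℓ ^ (m + 1)))).map (dslCast ℓ (Nat.le_succ m))) = _
  rw [hu, hB]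

/-- `(1 + B) ^ k = 1 + k • B` when `B * B = 0` -/
theorem dsl_one_add_pow {R : Type*} [Ring R] (B : R) (hB : B * B = 0) (k : ℕ) :
    (1 + B) ^ k = 1 + k • B := by
  induction k with
  | zero => simp
  | succ k ih =>
    rw [pow_succ, ih, add_mul, one_mul, mul_add, mul_one, smul_mul_assoc, hB, smul_zero, add_zero,
      succ_nsmul]
    abel

theorem dsl_pow_mul_pow {R : Type*} [CommRing R] (c a b : R) (m m' : ℕ) (h : m = m' + 1) :
    c ^ m * a * (c ^ m * b) = c ^ (m + 1) * (c ^ m' * a * b) := by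
  subst h
  ring

theorem dslGLCast_ker_isPGroup (m : ℕ) (hm : 1 ≤ m) : IsPGroup ℓ (dslGLCast ℓ m).ker := by
  intro A
  refine ⟨1, ?_⟩
  rw [pow_one]
  apply Subtype.ext
  apply Units.ext
  show (((A : GL (Fin 2) (ZMod (ℓ ^ (m + 1)))) ^ ℓ : GL (Fin 2) (ZMod (ℓ ^ (m + 1)))) :
      Matrix (Fin 2) (Fin 2) (ZMod (ℓ ^ (m + 1)))) = 1
  rw [Units.val_pow_eq_pow_val]
  set M : Matrix (Fin 2) (Fin 2) (ZMod (ℓ ^ (m + 1))) :=
    ((A : GL (Fin 2) (ZMod (ℓ ^ (m + 1)))) : Matrix (Fin 2) (Fin 2) (ZMod (ℓ ^ (m + 1)))) with hM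
  have hA : M.map (dslCast ℓ (Nat.le_succ m)) = 1 := by
    have h1 : dslGLCast ℓ m (A : GL (Fin 2) (ZMod (ℓ ^ (m + 1)))) = 1 := A.2
    exact congrArg Units.val h1
  set B := M - 1 with hB
  have hentry : ∀ i j, ∃ y : ZMod (ℓ ^ (m + 1)), B i j = (ℓ : ZMod (ℓ ^ (m + 1))) ^ m * y := by
    intro i j
    apply dsl_exists_mul_of_cast_eq_zero
    have h1 := congrFun (congrFun hA i) j
    rw [Matrix.map_apply] at h1
    have h2 : dslCast ℓ (Nat.le_succ m) ((1 : Matrix (Fin 2) (Fin 2) (ZMod (ℓ ^ (m + 1)))) i j)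
        = (1 : Matrix (Fin 2) (Fin 2) (ZMod (ℓ ^ m))) i j := by
      rw [Matrix.one_apply, Matrix.one_apply]
      split_ifs
      · exact map_one _
      · exact map_zero _
    rw [hB, Matrix.sub_apply, map_sub, h1, h2, sub_self]
  choose y hy using hentry
  obtain ⟨c, hc⟩ : ∃ c : ZMod (ℓ ^ (m + 1)), c = (ℓ : ZMod (ℓ ^ (m + 1))) := ⟨_, rfl⟩
  rw [← hc] at hy
  have hℓ0 : c ^ (m + 1) = 0 := by
    have := ZMod.natCast_self (ℓ ^ (m + 1))
    rw [Nat.cast_pow] at this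
    rw [hc]
    exact this
  have hBB : B * B = 0 := by
    ext i j
    rw [Matrix.mul_apply, Matrix.zero_apply]
    refine Finset.sum_eq_zero fun k _ => ?_
    rw [hy i k, hy k j]
    obtain ⟨m', hm'⟩ : ∃ m', m = m' + 1 := ⟨m - 1, by omega⟩
    have h2 : c ^ m * y i k * (c ^ m * y k j) = c ^ (m + 1) * (c ^ m' * y i k * y k j) :=
      dsl_pow_mul_pow c (y i k) (y k j) m m' hm'
    rw [h2, hℓ0, zero_mul]
  have hℓB : ℓ • B = 0 := by
    ext i j
    rw [Matrix.smul_apply, Matrix.zero_apply, hy i j, nsmul_eq_mul, ← hc, ← mul_assoc, ← pow_succ',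
      hℓ0, zero_mul]
  have hMB : M = 1 + B := by rw [hB]; abel
  rw [hMB, dsl_one_add_pow B hBB, hℓB, add_zero]

end Fermat.Agent.DS
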