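/-
DS-L (helper8): lifting homomorphisms from a group of order prime to `ℓ` along a surjection of finite
groups whose kernel is an `ℓ`-group (Schur–Zassenhaus).
-/
import Mathlib

set_option autoImplicit false
set_option linter.style.haveILetI false

namespace Fermat.Agent.DS

/-- **lifting along a surjection with `ℓ`-group kernel** -/
theorem dsl_exists_lift_of_isPGroup_ker {Γ' Γ G : Type*} [Group Γ'] [Group Γ] [Group G]
    [Finite Γ'] [Finite G] (ℓ : ℕ) [Fact ℓ.Prime] (π : Γ' →* Γ) (hπ : Function.Surjective π)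
    (hker : IsPGroup ℓ π.ker) (hG : ¬ ℓ ∣ Nat.card G) (f : G →* Γ) :
    ∃ f' : G →* Γ', π.comp f' = f := by
  classical
  let E : Subgroup Γ' := f.range.comap π
  let πE : ↥E →* ↥f.range := (π.comp E.subtype).codRestrict f.range (fun x => x.2)
  have hπE : Function.Surjective πE := by
    rintro ⟨y, hy⟩
    obtain ⟨x, rfl⟩ := hπ y
    exact ⟨⟨x, hy⟩, rfl⟩
  let K : Subgroup ↥E := πE.ker
  -- `K` is an `ℓ`-group
  have hK : IsPGroup ℓ K := by
    let j : ↥K →* ↥π.ker :=
      { toFun := fun x => ⟨((x : ↥E) : Γ'), by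
          have h1 : πE (x : ↥E) = 1 := x.2
          have h2 := congrArg Subtype.val h1
          exact h2⟩
        map_one' := rfl
        map_mul' := fun _ _ => rfl }
    refine hker.of_injective j ?_
    intro x y hxy
    apply Subtype.ext
    apply Subtype.ext
    have h3 : ((j x : ↥π.ker) : Γ') = ((j y : ↥π.ker) : Γ') := congrArg Subtype.val hxy
    exact h3
  obtain ⟨a, ha⟩ := IsPGroup.iff_card.mp hK
  have hidx : K.index = Nat.card ↥f.range := by
    rw [Subgroup.index_ker, MonoidHom.range_eq_top.mpr hπE, Subgroup.card_top]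
  have hdvd : Nat.card ↥f.range ∣ Nat.card G := by
    rw [← Subgroup.index_ker]
    exact Subgroup.index_dvd_card _
  have hcop : Nat.Coprime (Nat.card K) K.index := by
    rw [ha, hidx]
    apply Nat.Coprime.pow_left
    rw [Nat.Prime.coprime_iff_not_dvd (Fact.out : ℓ.Prime)]
    exact fun h => hG (h.trans hdvd)
  obtain ⟨H, hH⟩ := Subgroup.exists_right_complement'_of_coprime hcop
  -- `πE` restricted to `H` is bijective
  let φ : ↥H →* ↥f.range := πE.comp H.subtype
  have hφinj : Function.Injective φ := by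
    rw [injective_iff_map_eq_one]
    intro h hh
    have h1 : (h : ↥E) ∈ K := hh
    have h2 : (h : ↥E) ∈ K ⊓ H := ⟨h1, h.2⟩
    rw [hH.disjoint.eq_bot, Subgroup.mem_bot] at h2
    exact Subtype.ext h2
  have hφsurj : Function.Surjective φ := by
    intro y
    obtain ⟨e, rfl⟩ := hπE y
    obtain ⟨⟨k, h⟩, hkh, -⟩ := hH.existsUnique e
    refine ⟨h, ?_⟩
    have h1 : (k : ↥E) * (h : ↥E) = e := hkh
    show πE (h : ↥E) = πE e
    rw [← h1, map_mul]
    have : πE (k : ↥E) = 1 := k.2
    rw [this, one_mul]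
  let ψ : ↥H ≃* ↥f.range := MulEquiv.ofBijective φ ⟨hφinj, hφsurj⟩
  refine ⟨(E.subtype.comp H.subtype).comp (ψ.symm.toMonoidHom.comp f.rangeRestrict), ?_⟩
  ext g
  have h1 : φ (ψ.symm (f.rangeRestrict g)) = f.rangeRestrict g := ψ.apply_symm_apply _
  exact congrArg Subtype.val h1

end Fermat.Agent.DS
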