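/-
DS-L (helper8): **lifting to `ℤ_[ℓ]`**.  A two-dimensional representation over `𝔽_ℓ` of a finite group
of order prime to `ℓ` lifts to `ℤ_[ℓ]`.
-/
import Mathlib
import Fermat.Agent.Lib.DS.Lift.SchurZ
import Fermat.Agent.Lib.DS.Lift.GLStep

set_option autoImplicit false
set_option linter.style.haveILetI false
set_option linter.unusedSectionVars false

open Matrix

namespace Fermat.Agent.DS

variable (ℓ : ℕ) [Fact ℓ.Prime]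

/-- a ring homomorphism `ℤ_[ℓ] → R` with `ℓ = 0` in `R` is determined -/
theorem dsl_ringHom_ext {R : Type*} [Ring R] (hR : (ℓ : R) = 0) (φ ψ : ℤ_[ℓ] →+* R) : φ = ψ := by
  ext y
  obtain ⟨k, -, hk⟩ := PadicInt.exists_mem_range y
  rw [PadicInt.maximalIdeal_eq_span_p, Ideal.mem_span_singleton] at hk
  obtain ⟨z, hz⟩ := hk
  have hy : y = (k : ℤ_[ℓ]) + (ℓ : ℤ_[ℓ]) * z := by rw [← hz]; ring
  rw [hy, map_add, map_add, map_mul, map_mul, map_natCast, map_natCast, map_natCast, map_natCast,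
    hR, zero_mul, zero_mul]

variable {G : Type*} [Group G] [Finite G]

/-- the lifting step -/
theorem dsl_exists_step (hG : ¬ ℓ ∣ Nat.card G) (n : ℕ)
    (F : G →* GL (Fin 2) (ZMod (ℓ ^ (n + 1)))) :
    ∃ F' : G →* GL (Fin 2) (ZMod (ℓ ^ (n + 1 + 1))), (dslGLCast ℓ (n + 1)).comp F' = F := by
  haveI : NeZero ℓ := ⟨(Fact.out : ℓ.Prime).ne_zero⟩
  haveI : NeZero (ℓ ^ (n + 1 + 1)) := NeZero.pow
  exact dsl_exists_lift_of_isPGroup_ker ℓ (dslGLCast ℓ (n + 1))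
    (dslGLCast_surjective ℓ (n + 1) (by omega)) (dslGLCast_ker_isPGroup ℓ (n + 1) (by omega)) hG F

/-- the compatible system of lifts -/
noncomputable def dslSys (hG : ¬ ℓ ∣ Nat.card G) (F₀ : G →* GL (Fin 2) (ZMod (ℓ ^ (0 + 1)))) :
    ∀ n : ℕ, G →* GL (Fin 2) (ZMod (ℓ ^ (n + 1)))
  | 0 => F₀
  | (n + 1) => Classical.choose (dsl_exists_step ℓ hG n (dslSys hG F₀ n))

theorem dslSys_succ (hG : ¬ ℓ ∣ Nat.card G) (F₀ : G →* GL (Fin 2) (ZMod (ℓ ^ (0 + 1)))) (n : ℕ) :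
    (dslGLCast ℓ (n + 1)).comp (dslSys ℓ hG F₀ (n + 1)) = dslSys ℓ hG F₀ n :=
  Classical.choose_spec (dsl_exists_step ℓ hG n (dslSys ℓ hG F₀ n))

/-- the sequence of entries -/
noncomputable def dslEntry (hG : ¬ ℓ ∣ Nat.card G) (F₀ : G →* GL (Fin 2) (ZMod (ℓ ^ (0 + 1))))
    (g : G) (i j : Fin 2) : ∀ n : ℕ, ZMod (ℓ ^ n)
  | 0 => 0
  | (n + 1) => (dslSys ℓ hG F₀ n g : Matrix (Fin 2) (Fin 2) (ZMod (ℓ ^ (n + 1)))) i j

theorem dslEntry_compat (hG : ¬ ℓ ∣ Nat.card G) (F₀ : G →* GL (Fin 2) (ZMod (ℓ ^ (0 + 1))))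
    (g : G) (i j : Fin 2) (m n : ℕ) (h : m ≤ n) :
    dslCast ℓ h (dslEntry ℓ hG F₀ g i j n) = dslEntry ℓ hG F₀ g i j m := by
  apply dsl_compat_of_succ
  intro n
  cases n with
  | zero =>
    haveI : Subsingleton (ZMod (ℓ ^ 0)) := by rw [pow_zero]; infer_instance
    exact Subsingleton.elim _ _
  | succ n =>
    have h1 := DFunLike.congr_fun (dslSys_succ ℓ hG F₀ n) g
    have h2 := congrArg (fun A : GL (Fin 2) (ZMod (ℓ ^ (n + 1))) =>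
      (A : Matrix (Fin 2) (Fin 2) (ZMod (ℓ ^ (n + 1)))) i j) h1
    exact h2


/-- the limit matrix -/
noncomputable def dslLim (hG : ¬ ℓ ∣ Nat.card G) (F₀ : G →* GL (Fin 2) (ZMod (ℓ ^ (0 + 1))))
    (g : G) : Matrix (Fin 2) (Fin 2) ℤ_[ℓ] := fun i j =>
  Classical.choose (dsl_exists_padicInt ℓ (dslEntry ℓ hG F₀ g i j) (dslEntry_compat ℓ hG F₀ g i j))

theorem toZModPow_dslLim (hG : ¬ ℓ ∣ Nat.card G) (F₀ : G →* GL (Fin 2) (ZMod (ℓ ^ (0 + 1))))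
    (g : G) (i j : Fin 2) (n : ℕ) :
    PadicInt.toZModPow (n + 1) (dslLim ℓ hG F₀ g i j)
      = (dslSys ℓ hG F₀ n g : Matrix (Fin 2) (Fin 2) (ZMod (ℓ ^ (n + 1)))) i j :=
  Classical.choose_spec
    (dsl_exists_padicInt ℓ (dslEntry ℓ hG F₀ g i j) (dslEntry_compat ℓ hG F₀ g i j)) (n + 1)

theorem dslLim_map (hG : ¬ ℓ ∣ Nat.card G) (F₀ : G →* GL (Fin 2) (ZMod (ℓ ^ (0 + 1))))
    (g : G) (n : ℕ) :
    (dslLim ℓ hG F₀ g).map (PadicInt.toZModPow (n + 1))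
      = (dslSys ℓ hG F₀ n g : Matrix (Fin 2) (Fin 2) (ZMod (ℓ ^ (n + 1)))) := by
  ext i j
  exact toZModPow_dslLim ℓ hG F₀ g i j n

/-- two matrices over `ℤ_[ℓ]` with the same reductions modulo all `ℓ ^ (n + 1)` are equal -/
theorem dsl_matrix_ext (A B : Matrix (Fin 2) (Fin 2) ℤ_[ℓ])
    (h : ∀ n : ℕ, A.map (PadicInt.toZModPow (n + 1)) = B.map (PadicInt.toZModPow (n + 1))) :
    A = B := by
  ext i j
  rw [← PadicInt.ext_of_toZModPow]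
  intro n
  cases n with
  | zero =>
    haveI : Subsingleton (ZMod (ℓ ^ 0)) := by rw [pow_zero]; infer_instance
    exact Subsingleton.elim _ _
  | succ n =>
    have := congrFun (congrFun (h n) i) j
    exact this

theorem dslLim_mul (hG : ¬ ℓ ∣ Nat.card G) (F₀ : G →* GL (Fin 2) (ZMod (ℓ ^ (0 + 1))))
    (g h : G) : dslLim ℓ hG F₀ (g * h) = dslLim ℓ hG F₀ g * dslLim ℓ hG F₀ h := by
  apply dsl_matrix_ext
  intro n
  rw [Matrix.map_mul, dslLim_map, dslLim_map, dslLim_map, map_mul]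
  rfl

theorem dslLim_one (hG : ¬ ℓ ∣ Nat.card G) (F₀ : G →* GL (Fin 2) (ZMod (ℓ ^ (0 + 1)))) :
    dslLim ℓ hG F₀ 1 = 1 := by
  apply dsl_matrix_ext
  intro n
  rw [dslLim_map, map_one, Matrix.map_one _ (map_zero _) (map_one _)]
  rfl

/-- the lift as a homomorphism to `GL₂(ℤ_[ℓ])` -/
noncomputable def dslLift (hG : ¬ ℓ ∣ Nat.card G) (F₀ : G →* GL (Fin 2) (ZMod (ℓ ^ (0 + 1)))) :
    G →* GL (Fin 2) ℤ_[ℓ] :=
  MonoidHom.toHomUnits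
    { toFun := dslLim ℓ hG F₀
      map_one' := dslLim_one ℓ hG F₀
      map_mul' := dslLim_mul ℓ hG F₀ }

theorem dslLift_val (hG : ¬ ℓ ∣ Nat.card G) (F₀ : G →* GL (Fin 2) (ZMod (ℓ ^ (0 + 1)))) (g : G) :
    ((dslLift ℓ hG F₀ g : GL (Fin 2) ℤ_[ℓ]) : Matrix (Fin 2) (Fin 2) ℤ_[ℓ]) = dslLim ℓ hG F₀ g :=
  rfl

/-- **lifting to `ℤ_[ℓ]`** -/
theorem dsl_exists_lift_padicInt (hG : ¬ ℓ ∣ Nat.card G) (ρbar : G →* GL (Fin 2) (ZMod ℓ)) :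
    ∃ ρ : G →* GL (Fin 2) ℤ_[ℓ],
      ∀ g, Matrix.GeneralLinearGroup.map PadicInt.toZMod (ρ g) = ρbar g := by
  let e₁ : ZMod ℓ ≃+* ZMod (ℓ ^ (0 + 1)) := ZMod.ringEquivCongr (by rw [zero_add, pow_one])
  let F₀ : G →* GL (Fin 2) (ZMod (ℓ ^ (0 + 1))) :=
    (Matrix.GeneralLinearGroup.map (e₁ : ZMod ℓ →+* ZMod (ℓ ^ (0 + 1)))).comp ρbar
  refine ⟨dslLift ℓ hG F₀, fun g => ?_⟩
  apply Units.ext
  ext i j
  show PadicInt.toZMod (dslLim ℓ hG F₀ g i j) = (ρbar g : Matrix (Fin 2) (Fin 2) (ZMod ℓ)) i j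
  have h1 : PadicInt.toZModPow (0 + 1) (dslLim ℓ hG F₀ g i j)
      = e₁ ((ρbar g : Matrix (Fin 2) (Fin 2) (ZMod ℓ)) i j) := toZModPow_dslLim ℓ hG F₀ g i j 0
  have hℓ : ((ℓ : ℕ) : ZMod (ℓ ^ (0 + 1))) = 0 := by
    rw [ZMod.natCast_eq_zero_iff]
    simp
  have h2 : (e₁ : ZMod ℓ →+* ZMod (ℓ ^ (0 + 1))).comp PadicInt.toZMod = PadicInt.toZModPow (0 + 1) :=
    dsl_ringHom_ext ℓ hℓ _ _
  have h3 : e₁ (PadicInt.toZMod (dslLim ℓ hG F₀ g i j))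
      = e₁ ((ρbar g : Matrix (Fin 2) (Fin 2) (ZMod ℓ)) i j) := by
    rw [← h1, ← h2]
    rfl
  exact e₁.injective h3

end Fermat.Agent.DS
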