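/-
DS-L (helper8): **the residue field and the reduction map**.  `dslInt ℓ` is the ring of integers of
`AlgebraicClosure ℚ_[ℓ]`, `dslMax ℓ` a maximal ideal of it above `ℓ`, `DslRes ℓ` the residue field (an
algebraic closure of `𝔽_ℓ`), and `dslRed ℓ : integralClosure ℤ ℂ →+* DslRes ℓ` the reduction map defined
through the fixed isomorphism `dslIso ℓ`.  The prime `λ` of the Deligne–Serre argument is the kernel
of `dslRed ℓ`.
-/
import Mathlib
import Fermat.Agent.Lib.DS.Lift.Iso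
import Fermat.Agent.Lib.DS.Lift.LiftPadic

set_option autoImplicit false
set_option linter.unusedSectionVars false

namespace Fermat.Agent.DS

variable (ℓ : ℕ) [Fact ℓ.Prime]

/-- the ring of integers of `AlgebraicClosure ℚ_[ℓ]` -/
noncomputable def dslInt : Subalgebra ℤ_[ℓ] (AlgebraicClosure ℚ_[ℓ]) :=
  integralClosure ℤ_[ℓ] (AlgebraicClosure ℚ_[ℓ])

theorem dsl_span_ne_top : Ideal.span {((ℓ : ℕ) : dslInt ℓ)} ≠ ⊤ := by
  intro h
  rw [Ideal.span_singleton_eq_top] at h
  obtain ⟨u, hu⟩ := h.exists_right_inv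
  -- `u = 1/ℓ` is integral over `ℤ_[ℓ]` and lies in `ℚ_[ℓ]`
  have hu' : ((ℓ : ℕ) : AlgebraicClosure ℚ_[ℓ]) * (u : AlgebraicClosure ℚ_[ℓ]) = 1 := by
    have := congrArg (fun x : dslInt ℓ => (x : AlgebraicClosure ℚ_[ℓ])) hu
    simpa using this
  have h1 : (u : AlgebraicClosure ℚ_[ℓ])
      = algebraMap ℚ_[ℓ] (AlgebraicClosure ℚ_[ℓ]) ((ℓ : ℚ_[ℓ])⁻¹) := by
    rw [map_inv₀, map_natCast]
    exact (eq_inv_of_mul_eq_one_right hu')
  have h2 : IsIntegral ℤ_[ℓ] ((ℓ : ℚ_[ℓ])⁻¹) := by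
    have h3 : IsIntegral ℤ_[ℓ] (u : AlgebraicClosure ℚ_[ℓ]) := u.2
    rw [h1] at h3
    exact (isIntegral_algebraMap_iff (algebraMap ℚ_[ℓ] (AlgebraicClosure ℚ_[ℓ])).injective).mp h3
  obtain ⟨z, hz⟩ := IsIntegrallyClosed.isIntegral_iff.mp h2
  have h4 : ‖(ℓ : ℚ_[ℓ])⁻¹‖ ≤ 1 := by
    rw [← hz]; exact PadicInt.norm_le_one z
  rw [norm_inv, Padic.norm_p] at h4
  have : 1 < ℓ := (Fact.out : ℓ.Prime).one_lt
  simp at h4
  omega

/-- a maximal ideal of `dslInt ℓ` above `ℓ` -/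
noncomputable def dslMax : Ideal (dslInt ℓ) :=
  Classical.choose (Ideal.exists_le_maximal _ (dsl_span_ne_top ℓ))

instance dslMax_isMaximal : (dslMax ℓ).IsMaximal :=
  (Classical.choose_spec (Ideal.exists_le_maximal _ (dsl_span_ne_top ℓ))).1

theorem dsl_natCast_mem_max : ((ℓ : ℕ) : dslInt ℓ) ∈ dslMax ℓ :=
  (Classical.choose_spec (Ideal.exists_le_maximal _ (dsl_span_ne_top ℓ))).2
    (Ideal.subset_span rfl)

/-- the residue field: an algebraic closure of `𝔽_ℓ` in disguise -/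
abbrev DslRes : Type := dslInt ℓ ⧸ dslMax ℓ

noncomputable instance dslRes_field : Field (DslRes ℓ) := Ideal.Quotient.field (dslMax ℓ)

/-- the reduction map on `dslInt ℓ` -/
noncomputable def dslMk : dslInt ℓ →+* DslRes ℓ := Ideal.Quotient.mk (dslMax ℓ)

theorem dslMk_surjective : Function.Surjective (dslMk ℓ) := Ideal.Quotient.mk_surjective

theorem dslMk_eq_zero_iff (x : dslInt ℓ) : dslMk ℓ x = 0 ↔ x ∈ dslMax ℓ :=
  Ideal.Quotient.eq_zero_iff_mem

theorem dslRes_natCast_self : ((ℓ : ℕ) : DslRes ℓ) = 0 := by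
  have : dslMk ℓ ((ℓ : ℕ) : dslInt ℓ) = 0 := (dslMk_eq_zero_iff ℓ _).mpr (dsl_natCast_mem_max ℓ)
  rwa [map_natCast] at this

instance dslRes_charP : CharP (DslRes ℓ) ℓ :=
  (CharP.charP_iff_prime_eq_zero (Fact.out : ℓ.Prime)).mpr (dslRes_natCast_self ℓ)

/-- the inclusion of the prime field -/
noncomputable def dslResMap : ZMod ℓ →+* DslRes ℓ := ZMod.castHom (dvd_refl ℓ) (DslRes ℓ)

theorem dslResMap_injective : Function.Injective (dslResMap ℓ) := (dslResMap ℓ).injective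

/-- the reduction of `ℤ_[ℓ]` -/
theorem dslMk_algebraMap (z : ℤ_[ℓ]) :
    dslMk ℓ (algebraMap ℤ_[ℓ] (dslInt ℓ) z) = dslResMap ℓ (PadicInt.toZMod z) := by
  have := dsl_ringHom_ext ℓ (R := DslRes ℓ) (dslRes_natCast_self ℓ)
    ((dslMk ℓ).comp (algebraMap ℤ_[ℓ] (dslInt ℓ))) ((dslResMap ℓ).comp PadicInt.toZMod)
  exact RingHom.congr_fun this z

/-- the embedding of the algebraic integers of `ℂ` into `dslInt ℓ` -/
noncomputable def dslEmb : integralClosure ℤ ℂ →+* dslInt ℓ :=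
  RingHom.codRestrict (((dslIso ℓ : ℂ ≃+* AlgebraicClosure ℚ_[ℓ]) : ℂ →+* AlgebraicClosure ℚ_[ℓ]).comp
    ((integralClosure ℤ ℂ).val : integralClosure ℤ ℂ →+* ℂ)) (dslInt ℓ) (fun x => by
      have h1 : IsIntegral ℤ (x : ℂ) := x.2
      have h2 : IsIntegral ℤ (dslIso ℓ (x : ℂ)) := map_isIntegral_int (dslIso ℓ) h1
      exact h2.tower_top)

@[simp] theorem coe_dslEmb (x : integralClosure ℤ ℂ) :
    ((dslEmb ℓ x : dslInt ℓ) : AlgebraicClosure ℚ_[ℓ]) = dslIso ℓ (x : ℂ) := rfl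

theorem dslEmb_injective : Function.Injective (dslEmb ℓ) := by
  intro x y h
  have := congrArg (fun z : dslInt ℓ => (z : AlgebraicClosure ℚ_[ℓ])) h
  simp only [coe_dslEmb] at this
  exact Subtype.ext ((dslIso ℓ).injective this)

/-- **the reduction map** `ℤ̄ → 𝔽̄_ℓ` -/
noncomputable def dslRed : integralClosure ℤ ℂ →+* DslRes ℓ := (dslMk ℓ).comp (dslEmb ℓ)

theorem dslRed_apply (x : integralClosure ℤ ℂ) : dslRed ℓ x = dslMk ℓ (dslEmb ℓ x) := rfl

/-- the reduction of an element which comes from `ℤ_[ℓ]` -/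
theorem dslRed_of_padicInt (x : integralClosure ℤ ℂ) (z : ℤ_[ℓ])
    (h : dslIso ℓ (x : ℂ) = algebraMap ℤ_[ℓ] (AlgebraicClosure ℚ_[ℓ]) z) :
    dslRed ℓ x = dslResMap ℓ (PadicInt.toZMod z) := by
  rw [← dslMk_algebraMap, dslRed_apply]
  congr 1
  apply Subtype.ext
  rw [coe_dslEmb, h]
  rfl

theorem dslRed_intCast (n : ℤ) : dslRed ℓ (n : integralClosure ℤ ℂ) = (n : DslRes ℓ) := map_intCast _ n

/-- an element of `DslRes ℓ` lies in the prime field iff it is fixed by the Frobenius -/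
theorem dsl_mem_range_resMap_iff (x : DslRes ℓ) : x ∈ (dslResMap ℓ).range ↔ x ^ ℓ = x := by
  constructor
  · rintro ⟨a, rfl⟩
    rw [(map_pow (dslResMap ℓ) a ℓ).symm, ZMod.pow_card]
  · intro hx
    classical
    -- the roots of `X ^ ℓ - X` are exactly the `ℓ` elements of the prime field
    let P : Polynomial (DslRes ℓ) := Polynomial.X ^ ℓ - Polynomial.X
    have hℓ : 1 < ℓ := (Fact.out : ℓ.Prime).one_lt
    have hP : P ≠ 0 := FiniteField.X_pow_card_sub_X_ne_zero (DslRes ℓ) hℓ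
    have hdeg : P.natDegree = ℓ := FiniteField.X_pow_card_sub_X_natDegree_eq (DslRes ℓ) hℓ
    let s : Finset (DslRes ℓ) := Finset.univ.image (dslResMap ℓ)
    have hs : s.card = ℓ := by
      rw [Finset.card_image_of_injective _ (dslResMap_injective ℓ), Finset.card_univ, ZMod.card]
    have hsub : s.val ≤ P.roots := by
      rw [Multiset.le_iff_subset s.nodup]
      intro y hy
      obtain ⟨a, -, rfl⟩ := Finset.mem_image.mp hy
      rw [Polynomial.mem_roots hP]
      simp only [P, Polynomial.IsRoot.def, Polynomial.eval_sub, Polynomial.eval_pow,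
        Polynomial.eval_X]
      rw [(map_pow (dslResMap ℓ) a ℓ).symm, ZMod.pow_card, sub_self]
    have hcard : P.roots.card ≤ ℓ := by
      have := Polynomial.card_roots' P
      rwa [hdeg] at this
    have heq : s.val = P.roots :=
      Multiset.eq_of_le_of_card_le hsub (by rw [Finset.card_val, hs]; exact hcard)
    have hxr : x ∈ P.roots := by
      rw [Polynomial.mem_roots hP]
      simp only [P, Polynomial.IsRoot.def, Polynomial.eval_sub, Polynomial.eval_pow,
        Polynomial.eval_X, hx, sub_self]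
    rw [← heq] at hxr
    obtain ⟨a, -, rfl⟩ := Finset.mem_image.mp hxr
    exact ⟨a, rfl⟩

/-- a nonzero algebraic integer reduces to zero for finitely many `ℓ` only: those dividing the
constant coefficient of its minimal polynomial -/
theorem dsl_dvd_of_dslRed_eq_zero (x : integralClosure ℤ ℂ) (hx : dslRed ℓ x = 0) :
    (ℓ : ℤ) ∣ (minpoly ℤ x).coeff 0 := by
  have h1 : Polynomial.aeval x (minpoly ℤ x) = 0 := minpoly.aeval ℤ x
  have h2 := congrArg (dslRed ℓ) h1
  rw [Polynomial.aeval_def, Polynomial.hom_eval₂, hx, Polynomial.eval₂_at_zero, map_zero] at h2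
  rw [RingHom.comp_apply, eq_intCast, map_intCast] at h2
  exact (CharP.intCast_eq_zero_iff (DslRes ℓ) ℓ _).mp h2

theorem dsl_minpoly_coeff_zero_ne_zero (x : integralClosure ℤ ℂ) (hx : x ≠ 0) :
    (minpoly ℤ x).coeff 0 ≠ 0 := by
  intro h0
  have hint : IsIntegral ℤ x := integralClosure.isIntegral x
  have hass : Associated Polynomial.X (minpoly ℤ x) :=
    Polynomial.irreducible_X.associated_of_dvd (minpoly.irreducible hint)
      (Polynomial.X_dvd_iff.mpr h0)
  have heq : Polynomial.X = minpoly ℤ x :=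
    Polynomial.eq_of_monic_of_associated Polynomial.monic_X (minpoly.monic hint) hass
  have := minpoly.aeval ℤ x
  rw [← heq, Polynomial.aeval_X] at this
  exact hx this

end Fermat.Agent.DS
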