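/-
DS-L (helper8): **lifting to `ℂ`**.  A representation `ρbar : Γ →* GL₂(𝔽_ℓ)` whose image has order prime
to `ℓ` lifts to `ℤ_[ℓ]` and, through the fixed isomorphism `dslIso ℓ`, to a complex representation with
the same kernel; its traces and determinants are algebraic integers (sums and products of roots of
unity) reducing to those of `ρbar` under `dslRed ℓ`.
-/
import Mathlib
import Fermat.Agent.Lib.DS.Lift.Red

set_option autoImplicit false
set_option linter.unusedSectionVars false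

open Matrix Polynomial

namespace Fermat.Agent.DS

/-- the eigenvalues of a `2 × 2` matrix of finite order over an algebraically closed field are roots
of unity -/
theorem dsl_roots_of_pow_eq_one {K : Type*} [Field K] [IsAlgClosed K]
    (M : Matrix (Fin 2) (Fin 2) K) (m : ℕ) (h : M ^ m = 1) :
    ∃ α β : K, α ^ m = 1 ∧ β ^ m = 1 ∧ M.trace = α + β ∧ M.det = α * β := by
  have hroot : ∀ μ ∈ M.charpoly.roots, μ ^ m = 1 := by
    intro μ hμ
    have h1 : μ ∈ spectrum K M :=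
      Matrix.mem_spectrum_iff_isRoot_charpoly.mpr (Polynomial.isRoot_of_mem_roots hμ)
    have h2 := spectrum.pow_mem_pow M m h1
    rw [h, spectrum.one_eq] at h2
    exact h2
  have hcard : M.charpoly.roots.card = 2 := by
    rw [← (IsAlgClosed.splits M.charpoly).natDegree_eq_card_roots, Matrix.charpoly_natDegree_eq_dim]
    simp
  obtain ⟨α, β, hαβ⟩ := Multiset.card_eq_two.mp hcard
  refine ⟨α, β, hroot α (by rw [hαβ]; simp), hroot β (by rw [hαβ]; simp), ?_, ?_⟩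
  · rw [Matrix.trace_eq_sum_roots_charpoly, hαβ]; simp
  · rw [Matrix.det_eq_prod_roots_charpoly, hαβ]; simp

variable (ℓ : ℕ) [Fact ℓ.Prime]

/-- the embedding `ℤ_[ℓ] → ℂ` induced by `dslIso ℓ` -/
noncomputable def dslToC : ℤ_[ℓ] →+* ℂ :=
  ((dslIso ℓ).symm : AlgebraicClosure ℚ_[ℓ] →+* ℂ).comp
    (algebraMap ℤ_[ℓ] (AlgebraicClosure ℚ_[ℓ]))

theorem dslIso_dslToC (z : ℤ_[ℓ]) :
    dslIso ℓ (dslToC ℓ z) = algebraMap ℤ_[ℓ] (AlgebraicClosure ℚ_[ℓ]) z :=
  (dslIso ℓ).apply_symm_apply _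

theorem dslToC_injective : Function.Injective (dslToC ℓ) := by
  intro x y h
  have h1 := congrArg (dslIso ℓ) h
  rw [dslIso_dslToC, dslIso_dslToC] at h1
  have h2 : Function.Injective (algebraMap ℤ_[ℓ] (AlgebraicClosure ℚ_[ℓ])) := by
    rw [IsScalarTower.algebraMap_eq ℤ_[ℓ] ℚ_[ℓ] (AlgebraicClosure ℚ_[ℓ])]
    exact (algebraMap ℚ_[ℓ] (AlgebraicClosure ℚ_[ℓ])).injective.comp
      (IsFractionRing.injective ℤ_[ℓ] ℚ_[ℓ])
  exact h2 h1

theorem dsl_glMap_injective {R S : Type*} [CommRing R] [CommRing S] (f : R →+* S)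
    (hf : Function.Injective f) :
    Function.Injective (Matrix.GeneralLinearGroup.map (n := Fin 2) f) := by
  intro x y h
  apply Units.ext
  ext i j
  have := congrArg (fun z : GL (Fin 2) S => (z : Matrix (Fin 2) (Fin 2) S) i j) h
  exact hf this

/-- **lifting to `ℂ`** -/
theorem dsl_exists_lift_complex {Γ : Type*} [Group Γ] (ρbar : Γ →* GL (Fin 2) (ZMod ℓ))
    (h : ¬ ℓ ∣ Nat.card ρbar.range) :
    ∃ ρ : Γ →* GL (Fin 2) ℂ, ρ.ker = ρbar.ker ∧
      ∀ g, ∃ α β : ℂ, α ^ Nat.card ρbar.range = 1 ∧ β ^ Nat.card ρbar.range = 1 ∧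
        (ρ g : Matrix (Fin 2) (Fin 2) ℂ).trace = α + β ∧
        (ρ g : Matrix (Fin 2) (Fin 2) ℂ).det = α * β ∧
        ∃ t d : integralClosure ℤ ℂ, (t : ℂ) = (ρ g : Matrix (Fin 2) (Fin 2) ℂ).trace ∧
          (d : ℂ) = (ρ g : Matrix (Fin 2) (Fin 2) ℂ).det ∧
          dslRed ℓ t = dslResMap ℓ (ρbar g : Matrix (Fin 2) (Fin 2) (ZMod ℓ)).trace ∧
          dslRed ℓ d = dslResMap ℓ (ρbar g : Matrix (Fin 2) (Fin 2) (ZMod ℓ)).det := by
  have : Finite (GL (Fin 2) (ZMod ℓ)) := inferInstance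
  have : Finite ρbar.range := inferInstance
  obtain ⟨ρ₀, hρ₀⟩ := dsl_exists_lift_padicInt ℓ h ρbar.range.subtype
  have hρ₀inj : Function.Injective ρ₀ := by
    rw [injective_iff_map_eq_one]
    intro r hr
    have := hρ₀ r
    rw [hr, map_one] at this
    exact Subtype.ext this.symm
  set m := Nat.card ρbar.range with hm
  have hmpos : 0 < m := Nat.card_pos
  let ρ : Γ →* GL (Fin 2) ℂ :=
    ((Matrix.GeneralLinearGroup.map (dslToC ℓ)).comp ρ₀).comp ρbar.rangeRestrict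
  have hρ : ∀ g, ρ g = Matrix.GeneralLinearGroup.map (dslToC ℓ) (ρ₀ (ρbar.rangeRestrict g)) :=
    fun g => rfl
  refine ⟨ρ, ?_, fun g => ?_⟩
  · ext g
    rw [MonoidHom.mem_ker, MonoidHom.mem_ker, hρ]
    rw [← map_one (Matrix.GeneralLinearGroup.map (n := Fin 2) (dslToC ℓ)),
      (dsl_glMap_injective (dslToC ℓ) (dslToC_injective ℓ)).eq_iff,
      ← map_one ρ₀, hρ₀inj.eq_iff]
    constructor
    · intro h1
      have := congrArg Subtype.val h1
      simpa using this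
    · intro h1
      exact Subtype.ext (by simpa using h1)
  · set r := ρbar.rangeRestrict g with hr
    set X : GL (Fin 2) ℤ_[ℓ] := ρ₀ r with hX
    have hXm : X ^ m = 1 := by
      rw [hX, ← map_pow, hm, pow_card_eq_one', map_one]
    have hval : (ρ g : Matrix (Fin 2) (Fin 2) ℂ)
        = (dslToC ℓ).mapMatrix (X : Matrix (Fin 2) (Fin 2) ℤ_[ℓ]) := rfl
    have hMm : (ρ g : Matrix (Fin 2) (Fin 2) ℂ) ^ m = 1 := by
      rw [hval, ← map_pow, ← Units.val_pow_eq_pow_val, hXm, Units.val_one, map_one]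
    obtain ⟨α, β, hα, hβ, htr, hdet⟩ := dsl_roots_of_pow_eq_one _ m hMm
    have hαi : IsIntegral ℤ α := IsIntegral.of_pow hmpos (by rw [hα]; exact isIntegral_one)
    have hβi : IsIntegral ℤ β := IsIntegral.of_pow hmpos (by rw [hβ]; exact isIntegral_one)
    have htrC : (ρ g : Matrix (Fin 2) (Fin 2) ℂ).trace
        = dslToC ℓ (X : Matrix (Fin 2) (Fin 2) ℤ_[ℓ]).trace := by
      rw [hval, AddMonoidHom.map_trace]; rfl
    have hdetC : (ρ g : Matrix (Fin 2) (Fin 2) ℂ).det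
        = dslToC ℓ (X : Matrix (Fin 2) (Fin 2) ℤ_[ℓ]).det := by
      rw [hval, RingHom.map_det]
    have hbar : (ρbar g : Matrix (Fin 2) (Fin 2) (ZMod ℓ))
        = (PadicInt.toZMod (p := ℓ)).mapMatrix (X : Matrix (Fin 2) (Fin 2) ℤ_[ℓ]) := by
      have := hρ₀ r
      have h2 := congrArg (fun z : GL (Fin 2) (ZMod ℓ) => (z : Matrix (Fin 2) (Fin 2) (ZMod ℓ))) this
      exact h2.symm
    refine ⟨α, β, hα, hβ, htr, hdet, ⟨α + β, hαi.add hβi⟩, ⟨α * β, hαi.mul hβi⟩, htr.symm,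
      hdet.symm, ?_, ?_⟩
    · rw [dslRed_of_padicInt ℓ _ (X : Matrix (Fin 2) (Fin 2) ℤ_[ℓ]).trace
        (by rw [← dslIso_dslToC, ← htrC, htr]), hbar, AddMonoidHom.map_trace]
      rfl
    · rw [dslRed_of_padicInt ℓ _ (X : Matrix (Fin 2) (Fin 2) ℤ_[ℓ]).det
        (by rw [← dslIso_dslToC, ← hdetC, hdet]), hbar, RingHom.map_det]

end Fermat.Agent.DS
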