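/-
DS-L (helper8), complements: the complex lift has finite image of the same order as `ρbar`.
-/
import Mathlib
import Fermat.Agent.Lib.DS.Lift.LiftComplex

set_option autoImplicit false

namespace Fermat.Agent.DS

/-- homomorphisms with the same kernel have images of the same cardinality -/
theorem dsl_card_range_eq {Γ H₁ H₂ : Type*} [Group Γ] [Group H₁] [Group H₂] (ρ : Γ →* H₁)
    (ρ' : Γ →* H₂) (h : ρ.ker = ρ'.ker) : Nat.card ρ.range = Nat.card ρ'.range := by
  have e₁ := QuotientGroup.quotientKerEquivRange ρ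
  have e₂ := QuotientGroup.quotientKerEquivRange ρ'
  have e₃ := QuotientGroup.quotientMulEquivOfEq h
  exact Nat.card_congr ((e₁.symm.trans e₃).trans e₂).toEquiv

/-- a complex lift with the same kernel as `ρbar : Γ →* GL₂(𝔽_ℓ)` has finite image -/
theorem dsl_finite_range (ℓ : ℕ) [Fact ℓ.Prime] {Γ : Type*} [Group Γ]
    (ρbar : Γ →* GL (Fin 2) (ZMod ℓ)) (ρ : Γ →* GL (Fin 2) ℂ) (h : ρ.ker = ρbar.ker) :
    Finite ρ.range := by
  have h1 : Nat.card ρ.range = Nat.card ρbar.range := dsl_card_range_eq ρ ρbar h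
  have : Finite (GL (Fin 2) (ZMod ℓ)) := inferInstance
  have : Finite ρbar.range := inferInstance
  have h2 : Nat.card ρbar.range ≠ 0 := Nat.card_pos.ne'
  exact Nat.finite_of_card_ne_zero (h1 ▸ h2)

end Fermat.Agent.DS
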