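/-
DS-L (helper8): **a fixed field isomorphism `ℂ ≃+* AlgebraicClosure ℚ_[ℓ]`**.  The field `ℚ_[ℓ]` has the
cardinality of the continuum (Cauchy sequences of rationals; complete nontrivially normed fields are
at least that large), hence so does its algebraic closure, and two algebraically closed fields of
characteristic zero of the same uncountable cardinality are isomorphic.
-/
import Mathlib

set_option autoImplicit false

open Cardinal

namespace Fermat.Agent.DS

theorem dsl_mk_padic (p : ℕ) [Fact p.Prime] : #ℚ_[p] = 𝔠 := by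
  apply le_antisymm
  · have h1 : Function.Surjective (Padic.mk : PadicSeq p → ℚ_[p]) := Quotient.mk'_surjective
    have h2 : #ℚ_[p] ≤ #(PadicSeq p) := mk_le_of_surjective h1
    have h3 : #(PadicSeq p) ≤ #(ℕ → ℚ) := mk_subtype_le _
    have h4 : #(ℕ → ℚ) = 𝔠 := by
      rw [← power_def, mk_nat, Cardinal.mkRat, aleph0_power_aleph0]
    exact h4 ▸ (h2.trans h3)
  · exact continuum_le_cardinal_of_nontriviallyNormedField ℚ_[p]

theorem dsl_mk_algClosure (p : ℕ) [Fact p.Prime] : #(AlgebraicClosure ℚ_[p]) = 𝔠 := by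
  apply le_antisymm
  · have := Algebra.IsAlgebraic.cardinalMk_le_max ℚ_[p] (AlgebraicClosure ℚ_[p])
    rw [dsl_mk_padic, max_eq_left aleph0_le_continuum] at this
    exact this
  · rw [← dsl_mk_padic p]
    exact mk_le_of_injective (algebraMap ℚ_[p] (AlgebraicClosure ℚ_[p])).injective

theorem dsl_nonempty_iso (p : ℕ) [Fact p.Prime] : Nonempty (ℂ ≃+* AlgebraicClosure ℚ_[p]) := by
  apply IsAlgClosed.ringEquiv_of_equiv_of_charZero
  · rw [mk_complex]; exact aleph0_lt_continuum
  · exact Cardinal.eq.mp (by rw [mk_complex, dsl_mk_algClosure])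

/-- the field isomorphism `ℂ ≃+* AlgebraicClosure ℚ_[p]`, fixed once and for all -/
noncomputable def dslIso (p : ℕ) [Fact p.Prime] : ℂ ≃+* AlgebraicClosure ℚ_[p] :=
  Classical.choice (dsl_nonempty_iso p)

end Fermat.Agent.DS
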